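/-
GATE-L sub-gate LB (helper25): **abstract assembly of the lower bound `rank K ≥ s - 1`.**

`V` finite-dimensional over a field `k` of characteristic `0` (`V = Frac(O) ⊗ Λ`), with
* a group action `ρ`, a subalgebra `A` (Hecke ring, `U = U_q ∈ A`), the relation
  `ρ g + ε g • ρ g⁻¹ = a g ∈ A`, complex conjugation `c`, a Frobenius lift `φ` (`ε φ = q ≠ 1`);
* the Atkin–Lehner involution `W`, and maps `aL : V → V'`, `aU : V' → V` with the trace relation
  `aU ∘ aL = 1 + U W` (KU-TR).

The **new part** is `X := ker (1 + U W) ⊓ ker (U + W)`.  Results: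
* `newPart` algebra: on `X`, `W = -U`, `U² = 1`, `X` is `U`- and `W`-stable;
* `finrank_le_newPart` : `dim V ≤ dim X + 2 dim V'`;
* `HalfRank` restricted to a stable subspace: `two_mul_finrank_ker_inf_le`;
* `lower_bound` : `dim V ≤ 2 dim V' + 2 dim ((U - ρ φ) X)`;
* `sub_mem_of_newPart` : `(U - φ) X ⊆ ker r1 ∩ ker (r1 ∘ W)` from the `U_q`-Kronecker congruence.

Mathlib + `GK/Tate/HalfRank.lean`.
-/
import Mathlib
import Fermat.Agent.GK.Tate.HalfRank

set_option autoImplicit false
set_option linter.unusedSectionVars false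

namespace Fermat.Agent.GK.LB

open Module

section NewPart

variable {k : Type*} [Field k] {V : Type*} [AddCommGroup V] [Module k V]

/-- the new part `ker (1 + U W) ⊓ ker (U + W)` -/
def newPart (U W : Module.End k V) : Submodule k V :=
  LinearMap.ker (1 + U * W) ⊓ LinearMap.ker (U + W)

variable {U W : Module.End k V}

theorem mem_newPart {x : V} : x ∈ newPart U W ↔ x + U (W x) = 0 ∧ U x + W x = 0 := by
  simp only [newPart, Submodule.mem_inf, LinearMap.mem_ker, LinearMap.add_apply,
    Module.End.one_apply, Module.End.mul_apply]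

theorem W_eq_neg_U {x : V} (hx : x ∈ newPart U W) : W x = -U x := by
  have := (mem_newPart.mp hx).2
  exact (neg_eq_of_add_eq_zero_right this).symm

theorem U_W_eq_neg {x : V} (hx : x ∈ newPart U W) : U (W x) = -x := by
  have := (mem_newPart.mp hx).1
  exact (neg_eq_of_add_eq_zero_right this).symm

theorem U_U_eq {x : V} (hx : x ∈ newPart U W) : U (U x) = x := by
  have h1 := U_W_eq_neg hx
  rw [W_eq_neg_U hx, map_neg, neg_inj] at h1
  exact h1

theorem W_U_eq_neg (hWW : W * W = 1) {x : V} (hx : x ∈ newPart U W) : W (U x) = -x := by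
  have h1 : U x = -W x := by rw [W_eq_neg_U hx, neg_neg]
  rw [h1, map_neg, ← Module.End.mul_apply, hWW, Module.End.one_apply]

theorem U_mem_newPart (hWW : W * W = 1) {x : V} (hx : x ∈ newPart U W) : U x ∈ newPart U W := by
  rw [mem_newPart]
  refine ⟨?_, ?_⟩
  · rw [W_U_eq_neg hWW hx, map_neg, add_neg_cancel]
  · rw [U_U_eq hx, W_U_eq_neg hWW hx, add_neg_cancel]

theorem W_mem_newPart (hWW : W * W = 1) {x : V} (hx : x ∈ newPart U W) : W x ∈ newPart U W := by
  rw [W_eq_neg_U hx]
  exact Submodule.neg_mem _ (U_mem_newPart hWW hx)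

theorem W_U_eq_U_W (hWW : W * W = 1) {x : V} (hx : x ∈ newPart U W) : W (U x) = U (W x) := by
  rw [W_U_eq_neg hWW hx, U_W_eq_neg hx]

/-- an operator commuting with `U` and `W` preserves the new part -/
theorem mem_newPart_of_commute {t : Module.End k V} (htU : t * U = U * t) (htW : t * W = W * t)
    {x : V} (hx : x ∈ newPart U W) : t x ∈ newPart U W := by
  have hU : ∀ y, t (U y) = U (t y) := fun y => LinearMap.congr_fun htU y
  have hW : ∀ y, t (W y) = W (t y) := fun y => LinearMap.congr_fun htW y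
  rw [mem_newPart] at hx ⊢
  refine ⟨?_, ?_⟩
  · rw [← hW, ← hU, ← map_add, hx.1, map_zero]
  · rw [← hU, ← hW, ← map_add, hx.2, map_zero]

end NewPart

section Dim

variable {k : Type*} [Field k] {V V' : Type*} [AddCommGroup V] [Module k V]
  [AddCommGroup V'] [Module k V'] [FiniteDimensional k V] [FiniteDimensional k V']

/-- `dim V ≤ dim ker f + dim V'` when `f` factors through `V'` -/
theorem finrank_le_ker_add {f : Module.End k V} (aL : V →ₗ[k] V') (aU : V' →ₗ[k] V)
    (h : f = aU ∘ₗ aL) : finrank k V ≤ finrank k (LinearMap.ker f) + finrank k V' := by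
  have h1 := LinearMap.finrank_range_add_finrank_ker f
  have h2 : finrank k (LinearMap.range f) ≤ finrank k V' := by
    have hle : LinearMap.range f ≤ LinearMap.range aU := by
      rw [h]; exact LinearMap.range_comp_le_range aL aU
    exact (Submodule.finrank_mono hle).trans (LinearMap.finrank_range_le aU)
  omega

/-- **dimension of the new part**: `dim V ≤ dim X + 2 dim V'`. -/
theorem finrank_le_newPart {U W : Module.End k V} (hWW : W * W = 1)
    (aL : V →ₗ[k] V') (aU : V' →ₗ[k] V) (hTR : 1 + U * W = aU ∘ₗ aL) :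
    finrank k V ≤ finrank k (newPart U W) + 2 * finrank k V' := by
  have h1 := finrank_le_ker_add (f := 1 + U * W) aL aU hTR
  have h2 : U + W = aU ∘ₗ (aL ∘ₗ W) := by
    have : U + W = (1 + U * W) * W := by
      rw [add_mul, one_mul, mul_assoc, hWW, mul_one, add_comm]
    rw [this, hTR]
    rfl
  have h3 := finrank_le_ker_add (f := U + W) (aL ∘ₗ W) aU h2
  have h4 := Submodule.finrank_sup_add_finrank_inf_eq (LinearMap.ker (1 + U * W))
    (LinearMap.ker (U + W))
  have h5 : finrank k ↥(LinearMap.ker (1 + U * W) ⊔ LinearMap.ker (U + W)) ≤ finrank k V :=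
    Submodule.finrank_le _
  have h6 : finrank k (newPart U W)
      = finrank k ↥(LinearMap.ker (1 + U * W) ⊓ LinearMap.ker (U + W)) := rfl
  omega

end Dim

section Restrict

variable {k : Type*} [Field k] [CharZero k] {V : Type*} [AddCommGroup V] [Module k V]
  [FiniteDimensional k V] {G : Type*} [Group G]

/-- **`HalfRank` on a stable subspace.**  All hypotheses are only required on `X`. -/
theorem two_mul_finrank_ker_inf_le (ρ : G →* Module.End k V) (X : Submodule k V)
    (hXρ : ∀ g, ∀ x ∈ X, ρ g x ∈ X)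
    (A : Subalgebra k (Module.End k V)) (hXA : ∀ t ∈ A, ∀ x ∈ X, t x ∈ X)
    (hAcomm : ∀ s ∈ A, ∀ t ∈ A, ∀ x ∈ X, s (t x) = t (s x))
    (hAρ : ∀ g, ∀ t ∈ A, ∀ x ∈ X, ρ g (t x) = t (ρ g x))
    (a : G → Module.End k V) (ha : ∀ g, a g ∈ A) (ε : G →* k)
    (hrel : ∀ g, ∀ x ∈ X, ρ g x + ε g • ρ g⁻¹ x = a g x)
    {c : G} (hc : c * c = 1) (hεc : ε c = -1)
    (htr : ∀ t (ht : t ∈ A), LinearMap.trace k X
      ((t * ρ c).restrict (fun x hx => hXA t ht _ (hXρ c x hx))) = 0)
    (φ : G) {q : k} (hεφ : ε φ = q) (hq : q ≠ 1)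
    {U : Module.End k V} (hU : U ∈ A) (hUU : ∀ x ∈ X, U (U x) = x) :
    2 * finrank k ↥(LinearMap.ker (U - ρ φ) ⊓ X) ≤ finrank k X := by
  classical
  -- restricted representation
  let ρX : G →* Module.End k X :=
    { toFun := fun g => (ρ g).restrict (hXρ g)
      map_one' := by
        ext x
        simp
      map_mul' := by
        intro g h
        ext x
        simp [Module.End.mul_apply] }
  have hρX : ∀ g (x : X), ((ρX g x : X) : V) = ρ g x := fun g x => rfl
  -- restricted algebra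
  let AX : Subalgebra k (Module.End k X) :=
    { carrier := {f | ∃ t ∈ A, ∀ x : X, ((f x : X) : V) = t x}
      mul_mem' := by
        rintro f f' ⟨t, ht, hf⟩ ⟨t', ht', hf'⟩
        refine ⟨t * t', A.mul_mem ht ht', fun x => ?_⟩
        rw [Module.End.mul_apply, hf, hf', Module.End.mul_apply]
      add_mem' := by
        rintro f f' ⟨t, ht, hf⟩ ⟨t', ht', hf'⟩
        refine ⟨t + t', A.add_mem ht ht', fun x => ?_⟩
        rw [LinearMap.add_apply, Submodule.coe_add, hf, hf', LinearMap.add_apply]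
      algebraMap_mem' := by
        intro r
        refine ⟨algebraMap k _ r, A.algebraMap_mem r, fun x => ?_⟩
        rw [Module.algebraMap_end_apply, Module.algebraMap_end_apply, Submodule.coe_smul] }
  have hAX : ∀ f, f ∈ AX ↔ ∃ t ∈ A, ∀ x : X, ((f x : X) : V) = t x := fun f => Iff.rfl
  have hres : ∀ t (ht : t ∈ A), t.restrict (hXA t ht) ∈ AX := fun t ht =>
    ⟨t, ht, fun x => rfl⟩
  let aX : G → Module.End k X := fun g => (a g).restrict (hXA _ (ha g))
  have key := Fermat.Agent.GK.HalfRank.two_mul_finrank_ker_le (k := k) (V := X) ρX AX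
    (by
      rintro f ⟨s, hs, hf⟩ f' ⟨t, ht, hf'⟩
      ext x
      rw [Module.End.mul_apply, Module.End.mul_apply, hf, hf', hf', hf]
      exact hAcomm s hs t ht x x.2)
    (by
      rintro g f ⟨t, ht, hf⟩
      ext x
      rw [Module.End.mul_apply, Module.End.mul_apply, hρX, hf, hf, hρX]
      exact hAρ g t ht x x.2)
    aX (fun g => hres _ (ha g)) ε
    (by
      intro g
      ext x
      rw [LinearMap.add_apply, LinearMap.smul_apply, Submodule.coe_add, Submodule.coe_smul,
        hρX, hρX]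
      exact hrel g x x.2)
    hc hεc
    (by
      rintro f ⟨t, ht, hf⟩
      have : f * ρX c = (t * ρ c).restrict (fun x hx => hXA t ht _ (hXρ c x hx)) := by
        ext x
        rw [Module.End.mul_apply, hf, hρX]
        rfl
      rw [this]
      exact htr t ht)
    φ hεφ hq (hres U hU)
    (by
      ext x
      rw [Module.End.mul_apply, Module.End.one_apply]
      exact hUU x x.2)
  -- identify the kernels
  have hker : finrank k ↥(LinearMap.ker (U.restrict (hXA U hU) - ρX φ))
      = finrank k ↥(LinearMap.ker (U - ρ φ) ⊓ X) := by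
    have e : LinearMap.ker (U.restrict (hXA U hU) - ρX φ)
        = (LinearMap.ker (U - ρ φ) ⊓ X).comap X.subtype := by
      ext x
      rw [LinearMap.mem_ker, Submodule.mem_comap, Submodule.mem_inf, LinearMap.mem_ker,
        Submodule.subtype_apply]
      constructor
      · intro h
        refine ⟨?_, x.2⟩
        have := congrArg Subtype.val h
        simpa [hρX] using this
      · rintro ⟨h, -⟩
        apply Subtype.ext
        simpa [hρX] using h
    rw [e]
    exact (Submodule.comapSubtypeEquivOfLe (inf_le_right :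
      LinearMap.ker (U - ρ φ) ⊓ X ≤ X)).finrank_eq
  rw [← hker]
  exact key

/-- rank form on the stable subspace: `dim X ≤ 2 dim ((U - ρ φ) X)` -/
theorem finrank_le_two_mul_finrank_map (ρ : G →* Module.End k V) (X : Submodule k V)
    (hXρ : ∀ g, ∀ x ∈ X, ρ g x ∈ X)
    (A : Subalgebra k (Module.End k V)) (hXA : ∀ t ∈ A, ∀ x ∈ X, t x ∈ X)
    (hAcomm : ∀ s ∈ A, ∀ t ∈ A, ∀ x ∈ X, s (t x) = t (s x))
    (hAρ : ∀ g, ∀ t ∈ A, ∀ x ∈ X, ρ g (t x) = t (ρ g x))
    (a : G → Module.End k V) (ha : ∀ g, a g ∈ A) (ε : G →* k)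
    (hrel : ∀ g, ∀ x ∈ X, ρ g x + ε g • ρ g⁻¹ x = a g x)
    {c : G} (hc : c * c = 1) (hεc : ε c = -1)
    (htr : ∀ t (ht : t ∈ A), LinearMap.trace k X
      ((t * ρ c).restrict (fun x hx => hXA t ht _ (hXρ c x hx))) = 0)
    (φ : G) {q : k} (hεφ : ε φ = q) (hq : q ≠ 1)
    {U : Module.End k V} (hU : U ∈ A) (hUU : ∀ x ∈ X, U (U x) = x) :
    finrank k X ≤ 2 * finrank k ↥(X.map (U - ρ φ)) := by
  have h1 := two_mul_finrank_ker_inf_le ρ X hXρ A hXA hAcomm hAρ a ha ε hrel hc hεc htr φ hεφ hq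
    hU hUU
  -- rank–nullity for the restriction of `U - ρ φ` to `X`
  have h2 := LinearMap.finrank_range_add_finrank_ker ((U - ρ φ).domRestrict X)
  have h3 : LinearMap.range ((U - ρ φ).domRestrict X) = X.map (U - ρ φ) := by
    ext y
    simp only [LinearMap.mem_range, Submodule.mem_map, LinearMap.domRestrict_apply]
    constructor
    · rintro ⟨x, rfl⟩
      exact ⟨x, x.2, rfl⟩
    · rintro ⟨x, hx, rfl⟩
      exact ⟨⟨x, hx⟩, rfl⟩
  have h4 : finrank k ↥(LinearMap.ker ((U - ρ φ).domRestrict X))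
      = finrank k ↥(LinearMap.ker (U - ρ φ) ⊓ X) := by
    have e : LinearMap.ker ((U - ρ φ).domRestrict X)
        = (LinearMap.ker (U - ρ φ) ⊓ X).comap X.subtype := by
      ext x
      simp only [LinearMap.mem_ker, LinearMap.domRestrict_apply, Submodule.mem_comap,
        Submodule.mem_inf, Submodule.subtype_apply]
      exact ⟨fun h => ⟨h, x.2⟩, fun h => h.1⟩
    rw [e]
    exact (Submodule.comapSubtypeEquivOfLe (inf_le_right :
      LinearMap.ker (U - ρ φ) ⊓ X ≤ X)).finrank_eq
  rw [h3, h4] at h2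
  omega

end Restrict

section Kernel

variable {V R : Type*} [AddCommGroup V] [AddCommGroup R]

/-- `(U - φ) X ⊆ ker r1 ∩ ker (r1 ∘ W)` from the `U_q`-Kronecker congruence `r1 ∘ U = r1 ∘ φ`,
for `x` with `W U x = U W x` (true on the new part). -/
theorem sub_mem_kernels (U W φ : V →+ V) (r1 : V →+ R)
    (hWφ : ∀ x, W (φ x) = φ (W x)) (hb : ∀ x, r1 (U x) = r1 (φ x)) {x : V}
    (hWU : W (U x) = U (W x)) :
    r1 (U x - φ x) = 0 ∧ r1 (W (U x - φ x)) = 0 := by
  refine ⟨by rw [map_sub, hb, sub_self], ?_⟩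
  rw [map_sub, hWU, hWφ, map_sub, hb, sub_self]

end Kernel

section Final

variable {k : Type*} [Field k] [CharZero k] {V V' : Type*} [AddCommGroup V] [Module k V]
  [FiniteDimensional k V] [AddCommGroup V'] [Module k V'] [FiniteDimensional k V']
  {G : Type*} [Group G]

/-- **Abstract lower bound.**  `dim V ≤ 2 dim V' + 2 dim ((U - ρ φ) X)`, `X` the new part:
with `dim V = 2 g(N)`, `dim V' = 2 g(N')` this is `rank (U - φ)|X ≥ g(N) - 2 g(N')`. -/
theorem lower_bound (ρ : G →* Module.End k V) (A : Subalgebra k (Module.End k V))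
    {U W : Module.End k V} (hWW : W * W = 1)
    (hXA : ∀ t ∈ A, ∀ x ∈ newPart U W, t x ∈ newPart U W)
    (hAcomm : ∀ s ∈ A, ∀ t ∈ A, s * t = t * s) (hAρ : ∀ g, ∀ t ∈ A, ρ g * t = t * ρ g)
    (a : G → Module.End k V) (ha : ∀ g, a g ∈ A) (ε : G →* k)
    (hrel : ∀ g, ρ g + ε g • ρ g⁻¹ = a g)
    {c : G} (hc : c * c = 1) (hεc : ε c = -1)
    (hU : U ∈ A)
    (hXρ : ∀ g, ∀ x ∈ newPart U W, ρ g x ∈ newPart U W)
    (htr : ∀ t (ht : t ∈ A), LinearMap.trace k (newPart U W)
      ((t * ρ c).restrict (fun x hx => hXA t ht _ (hXρ c x hx))) = 0)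
    (φ : G) {q : k} (hεφ : ε φ = q) (hq : q ≠ 1)
    (aL : V →ₗ[k] V') (aU : V' →ₗ[k] V) (hTR : 1 + U * W = aU ∘ₗ aL) :
    finrank k V ≤ 2 * finrank k V' + 2 * finrank k ↥((newPart U W).map (U - ρ φ)) := by
  have h1 := finrank_le_newPart hWW aL aU hTR
  have h2 := finrank_le_two_mul_finrank_map ρ (newPart U W) hXρ A hXA
    (fun s hs t ht x _ => LinearMap.congr_fun (hAcomm s hs t ht) x)
    (fun g t ht x _ => LinearMap.congr_fun (hAρ g t ht) x)
    a ha ε (fun g x _ => by
      have := LinearMap.congr_fun (hrel g) x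
      simpa using this)
    hc hεc htr φ hεφ hq hU (fun x hx => U_U_eq hx)
  omega

/-- the new part is stable under every operator commuting with `U` and `W`, e.g. `ρ g`. -/
theorem newPart_stable_of_commute {U W : Module.End k V} (ρ : G →* Module.End k V)
    (hUρ : ∀ g, ρ g * U = U * ρ g) (hWρ : ∀ g, ρ g * W = W * ρ g) (g : G) :
    ∀ x ∈ newPart U W, ρ g x ∈ newPart U W :=
  fun _ hx => mem_newPart_of_commute (hUρ g) (hWρ g) hx

end Final

end Fermat.Agent.GK.LB
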